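import Fermat.Agent.MUL.F4.Dict.Ord
import Fermat.Agent.MUL.Orig.Lib.Minkowski.InertiaLift
import Fermat.Agent.MUL.F4.Dict.Level
import Fermat.Agent.MUL.S48.W.A.K.Asm

section MergeWrap_F4_Dict_DivTrans -- from F4/Dict/DivTrans.lean

/-!
# F4 / Dict / DivTrans : `Gal(ℚ̄/F)` is transitive on the valuation subrings of `ℚ̄` over a prime of `F`
(helper74; core of the descent step of K2i)

* `div_eq_of_centre_eq` : a valuation subring of `ℚ̄` is determined by its centre on `ℤ̄`;
* `div_centre_smul` : `centre (g • A) = g • centre A`;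
* `div_exists_smul_eq` : if `A`, `A'` have the same nonunits among the integers of the number field
  `F`, then `A' = g • A` with `g ∈ Gal(ℚ̄/F)`.
-/

set_option autoImplicit false
set_option linter.unusedSectionVars false
set_option linter.style.haveILetI false

open CategoryTheory groupCohomology ExtCitation
open scoped Pointwise
open NumberField IsDedekindDomain
open Fermat.Agent.FrobExists Fermat.Agent.Minkowski

namespace Fermat.Agent.F4

attribute [local instance] isAlgebraic_Qb isAlgClosure_Qb isInvariant_Zb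

/-- A valuation subring of `ℚ̄` is determined by its centre on the algebraic integers. -/
theorem div_le_of_centre_eq {A A' : ValuationSubring (AlgebraicClosure ℚ)}
    (h : centre A = centre A') : A ≤ A' := by
  intro x hx
  obtain ⟨s, hs, hsu, hsx⟩ := exists_integral_mul A x hx
  have hs' : s ∉ A'.nonunits := by
    intro hcon
    apply hsu
    have h1 : (⟨s, hs⟩ : Zb) ∈ centre A' := (mem_centre_iff A' _).mpr hcon
    rw [← h] at h1
    exact (mem_centre_iff A _).mp h1
  rw [ValuationSubring.mem_nonunits_iff_or, not_or, not_not] at hs'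
  have hsx' : s * x ∈ A' := mem_valuationSubring_of_isIntegral A' hsx
  have e : x = s⁻¹ * (s * x) := by
    rw [← mul_assoc, inv_mul_cancel₀ hs'.1, one_mul]
  rw [e]
  exact A'.mul_mem _ _ hs'.2 hsx'

theorem div_eq_of_centre_eq {A A' : ValuationSubring (AlgebraicClosure ℚ)}
    (h : centre A = centre A') : A = A' :=
  le_antisymm (div_le_of_centre_eq h) (div_le_of_centre_eq h.symm)

/-- The centre of a conjugate. -/
theorem div_centre_smul (g : GQ) (A : ValuationSubring (AlgebraicClosure ℚ)) :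
    centre (g • A) = g • centre A := by
  ext b
  rw [Ideal.mem_pointwise_smul_iff_inv_smul_mem, mem_centre_iff, mem_centre_iff]
  constructor
  · intro h
    have := Fermat.Agent.KFin.kf_smul_mem_nonunits (g • A) g⁻¹ h
    rwa [inv_smul_smul] at this
  · intro h
    have := Fermat.Agent.KFin.kf_smul_mem_nonunits A g h
    have e : g ((g⁻¹ • b : Zb) : AlgebraicClosure ℚ) = (b : AlgebraicClosure ℚ) := by
      show g (g⁻¹ (b : AlgebraicClosure ℚ)) = _
      exact g.apply_symm_apply _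
    rwa [e] at this

/-- **Transitivity**: two valuation subrings of `ℚ̄` with the same centre on the integers of a
number field `F` are conjugate under `Gal(ℚ̄/F)`. -/
theorem div_exists_smul_eq (F : IntermediateField ℚ (AlgebraicClosure ℚ))
    [FiniteDimensional ℚ F] (A A' : ValuationSubring (AlgebraicClosure ℚ))
    (h : ∀ x : AlgebraicClosure ℚ, x ∈ F → IsIntegral ℤ x →
      (x ∈ A.nonunits ↔ x ∈ A'.nonunits)) :
    ∃ g ∈ F.fixingSubgroup, g • A = A' := by
  let _ : TopologicalSpace Zb := ⊥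
  have : DiscreteTopology Zb := ⟨rfl⟩
  have := continuousSMul_fixingSubgroup_Zb F
  have := compactSpace_fixingSubgroup F
  have := isInvariant_intL F
  have hunder : (centre A).under (intL F) = (centre A').under (intL F) := by
    ext a
    rw [Ideal.mem_comap, Ideal.mem_comap, mem_centre_iff, mem_centre_iff]
    exact h _ a.2 (a : Zb).2
  obtain ⟨g, hg⟩ := Algebra.IsInvariant.exists_smul_of_under_eq_of_profinite
    (A := intL F) (G := F.fixingSubgroup) (centre A) (centre A') hunder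
  refine ⟨g.1, g.2, ?_⟩
  apply div_eq_of_centre_eq
  rw [div_centre_smul]
  exact hg.symm

/-- **Transitivity**, in terms of `KFin.primeBelow`. -/
theorem div_exists_smul_eq_of_primeBelow (F : IntermediateField ℚ (AlgebraicClosure ℚ))
    [FiniteDimensional ℚ F] (A A' : ValuationSubring (AlgebraicClosure ℚ))
    (h : Fermat.Agent.KFin.primeBelow F A = Fermat.Agent.KFin.primeBelow F A') :
    ∃ g ∈ F.fixingSubgroup, g • A = A' := by
  haveI : NumberField F := { to_charZero := inferInstance, to_finiteDimensional := inferInstance }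
  refine div_exists_smul_eq F A A' fun x hxF hxint => ?_
  have hx' : IsIntegral ℤ (⟨x, hxF⟩ : F) := by
    refine (isIntegral_algebraMap_iff
      (FaithfulSMul.algebraMap_injective F (AlgebraicClosure ℚ))).mp ?_
    exact hxint
  have h1 := Fermat.Agent.KFin.mem_primeBelow_iff F A ⟨⟨x, hxF⟩, hx'⟩
  have h2 := Fermat.Agent.KFin.mem_primeBelow_iff F A' ⟨⟨x, hxF⟩, hx'⟩
  rw [h] at h1
  exact h1.symm.trans h2

/-- **Descent of orders**: for `t ∈ ℚ̄ˣ` with `g t / t` a unit at `A'` for all `g ∈ Gal(ℚ̄/F)`, the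
order of `t` at `A` depends only on the prime of `F` below `A`. -/
theorem div_hasOrdAt_of_primeBelow_eq (F : IntermediateField ℚ (AlgebraicClosure ℚ))
    [FiniteDimensional ℚ F] (A A' : ValuationSubring (AlgebraicClosure ℚ))
    (h : Fermat.Agent.KFin.primeBelow F A = Fermat.Agent.KFin.primeBelow F A') (q : ℕ)
    (t : AlgebraicClosure ℚ) (ht0 : t ≠ 0)
    (ht : ∀ g ∈ F.fixingSubgroup, IsUnitAt A' (g t * t⁻¹)) (n : ℤ)
    (hn : HasOrdAt A q t n) : HasOrdAt A' q t n := by
  obtain ⟨g, hg, rfl⟩ := div_exists_smul_eq_of_primeBelow F A A' h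
  have h1 := HasOrdAt.map g hn
  have h2 := (ht g hg).inv
  unfold HasOrdAt at h1 ⊢
  have h3 := IsUnitAt.mul h1 h2
  have hg0 : g t ≠ 0 := (map_ne_zero g).mpr ht0
  have e : g t * ((q : ℕ) : AlgebraicClosure ℚ) ^ (-n) * (g t * t⁻¹)⁻¹ =
      t * ((q : ℕ) : AlgebraicClosure ℚ) ^ (-n) := by
    rw [mul_inv, inv_inv]
    field_simp
  rwa [e] at h3

end Fermat.Agent.F4
end MergeWrap_F4_Dict_DivTrans

section MergeWrap_F4_Dict_Div -- from F4/Dict/Div.lean

/-!
# F4 / Dict / Div : the divisor map `t ↦ a_t` on `T_U` (seat K2i, part A; helper32)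

`L : OpenS S`, `F = L.field`, `T_U = L.TU = {t ∈ (ℚ_S)ˣ | (g - 1) t ∈ E ∀ g ∈ U}`.

* `OpenS.exists_isDivS` : every `t ∈ T_U` has a divisor outside `S` (descent: helper74's
  transitivity `div_hasOrdAt_of_primeBelow_eq`);
* `OpenS.IsDivS.sub_mem_sUnitsAdd` : `t`, `t'` with the same divisor differ by an element of `E`;
  `OpenS.IsDivS.mem_sUnitsAdd` : divisor `0` ⇒ `t ∈ E`; `OpenS.isDivS_of_mem_sUnitsAdd`;
* `OpenS.IsDivS.zero/add/neg/sub/nsmul/zsmul/sum`;
* `OpenS.IsDivS.mem_TU` : an element of `(ℚ_S)ˣ` with a divisor lies in `T_U`;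
* `OpenS.IsDivS.eq_of_primeBelow` : the divisor is unique at the primes below some `A` over
  `q ∉ S`;
* `OpenS.IsDivS.hasOrdAt_smul` : the order of `g t` at `A` is `d (A ∩ g F ...)`, abstract form of
  the conjugation rule (any `g : G_ℚ`);
* `OpenS.primeConj`, `OpenS.IsDivS.conj` : for `g` normalising `U`, `g` acts on the primes of
  `F` and `a_{g t} = g (a_t)`.
-/

set_option autoImplicit false
set_option linter.unusedSectionVars false

open CategoryTheory groupCohomology ExtCitation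
open scoped Pointwise
open NumberField IsDedekindDomain

namespace Fermat.Agent.F4

/-- A prime ideal contains at most one rational prime. -/
lemma div_prime_unique {R : Type*} [CommRing R] (P : Ideal R) [P.IsPrime] {q q' : ℕ}
    (hq : q.Prime) (hq' : q'.Prime) (h : (q : R) ∈ P) (h' : (q' : R) ∈ P) : q = q' := by
  by_contra hne
  have hcop : IsCoprime (q : ℤ) (q' : ℤ) :=
    Nat.isCoprime_iff_coprime.2 ((Nat.coprime_primes hq hq').2 hne)
  obtain ⟨a, b, hab⟩ := hcop
  have h1 : ((a * q + b * q' : ℤ) : R) ∈ P := by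
    push_cast
    exact P.add_mem (P.mul_mem_left _ h) (P.mul_mem_left _ h')
  rw [hab, Int.cast_one] at h1
  exact (Ideal.ne_top_iff_one P).1 (Ideal.IsPrime.ne_top inferInstance) h1

namespace OpenS

variable {S : Finset Nat.Primes} (L : OpenS S)

/-- The prime of `F` below a valuation subring over a rational prime. -/
noncomputable def primeBelowAt (q : Nat.Primes) (A : ValuationSubring (AlgebraicClosure ℚ))
    (hA : A.LiesOverPrime (q : ℕ)) : HeightOneSpectrum (𝓞 L.field) :=
  ⟨Fermat.Agent.KFin.primeBelow L.field A, inferInstance, by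
    intro h0
    have hqP := Fermat.Agent.KFin.natCast_mem_primeBelow L.field A q hA
    rw [h0, Ideal.mem_bot] at hqP
    exact q.2.ne_zero (by exact_mod_cast hqP)⟩

@[simp] lemma primeBelowAt_asIdeal (q : Nat.Primes) (A : ValuationSubring (AlgebraicClosure ℚ))
    (hA : A.LiesOverPrime (q : ℕ)) :
    (L.primeBelowAt q A hA).asIdeal = Fermat.Agent.KFin.primeBelow L.field A := rfl

lemma eq_primeBelowAt {q : Nat.Primes} {A : ValuationSubring (AlgebraicClosure ℚ)}
    (hA : A.LiesOverPrime (q : ℕ)) {v : HeightOneSpectrum (𝓞 L.field)}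
    (hv : v.asIdeal = Fermat.Agent.KFin.primeBelow L.field A) : v = L.primeBelowAt q A hA := by
  ext1
  exact hv

/-- `IsDivS`, in terms of `primeBelowAt`. -/
lemma isDivS_iff (t : QSx S) (d : HeightOneSpectrum (𝓞 L.field) → ℤ) :
    L.IsDivS t d ↔ ∀ (q : Nat.Primes), q ∉ S → ∀ (A : ValuationSubring (AlgebraicClosure ℚ))
      (hA : A.LiesOverPrime (q : ℕ)),
        HasOrdAt A q ((smUnits.val t : (AlgebraicClosure ℚ)ˣ) : AlgebraicClosure ℚ)
          (d (L.primeBelowAt q A hA)) := by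
  constructor
  · intro h q hq A hA
    exact h q hq A hA _ rfl
  · intro h q hq A hA v hv
    rw [L.eq_primeBelowAt hA hv]
    exact h q hq A hA

/-- The value of `(g - 1) t`. -/
lemma val_ρ_sub (g : GQ) (t : QSx S) :
    ((smUnits.val ((QSx S).ρ g t - t) : (AlgebraicClosure ℚ)ˣ) : AlgebraicClosure ℚ) =
      g ((smUnits.val t : (AlgebraicClosure ℚ)ˣ) : AlgebraicClosure ℚ) *
        (((smUnits.val t : (AlgebraicClosure ℚ)ˣ) : AlgebraicClosure ℚ))⁻¹ := by
  rw [sub_eq_add_neg, smUnits.val_add, smUnits.val_neg, Units.val_mul, Units.val_inv_eq_inv_val,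
    smUnits.val_ρ]
  rfl

/-- For `t ∈ T_U`, `g t / t` is a unit outside `S`. -/
lemma isUnitAt_of_mem_TU {t : QSx S} (ht : t ∈ L.TU) (g : GQ) (hg : g ∈ L.U)
    (q : Nat.Primes) (hq : q ∉ S) (A : ValuationSubring (AlgebraicClosure ℚ))
    (hA : A.LiesOverPrime (q : ℕ)) :
    IsUnitAt A (g ((smUnits.val t : (AlgebraicClosure ℚ)ˣ) : AlgebraicClosure ℚ) *
      (((smUnits.val t : (AlgebraicClosure ℚ)ˣ) : AlgebraicClosure ℚ))⁻¹) := by
  have h := ht g hg
  rw [mem_sUnitsAdd_iff, val_ρ_sub] at h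
  exact h q hq A hA

/-! ### (a) existence -/

/-- **Existence of the divisor** (descent): every `t ∈ T_U` has a divisor outside `S`. -/
theorem exists_isDivS (t : QSx S) (ht : t ∈ L.TU) :
    ∃ d : HeightOneSpectrum (𝓞 L.field) → ℤ, L.IsDivS t d := by
  classical
  have key : ∀ v : HeightOneSpectrum (𝓞 L.field), ∃ n : ℤ,
      ∀ (q : Nat.Primes), q ∉ S → ∀ (A : ValuationSubring (AlgebraicClosure ℚ)),
        A.LiesOverPrime (q : ℕ) → v.asIdeal = Fermat.Agent.KFin.primeBelow L.field A →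
          HasOrdAt A q ((smUnits.val t : (AlgebraicClosure ℚ)ˣ) : AlgebraicClosure ℚ) n := by
    intro v
    by_cases hex : ∃ (q : Nat.Primes) (A : ValuationSubring (AlgebraicClosure ℚ)), q ∉ S ∧
        A.LiesOverPrime (q : ℕ) ∧ v.asIdeal = Fermat.Agent.KFin.primeBelow L.field A
    · obtain ⟨q, A, hq, hA, hv⟩ := hex
      obtain ⟨n, hn⟩ := exists_hasOrdAt S (smUnits.val t) (smUnits.val_mem t) q hq A hA
      refine ⟨n, fun q' hq' A' hA' hv' => ?_⟩
      have hqq : (q : ℕ) = (q' : ℕ) := by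
        have h1 := Fermat.Agent.KFin.natCast_mem_primeBelow L.field A q hA
        have h2 := Fermat.Agent.KFin.natCast_mem_primeBelow L.field A' q' hA'
        rw [← hv] at h1
        rw [← hv'] at h2
        exact div_prime_unique v.asIdeal q.2 q'.2 h1 h2
      rw [← hqq]
      refine div_hasOrdAt_of_primeBelow_eq L.field A A' (hv.symm.trans hv') q _
        (smUnits.val t).ne_zero (fun g hg => ?_) n hn
      rw [L.fixingSubgroup_field] at hg
      exact L.isUnitAt_of_mem_TU ht g hg q' hq' A' hA'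
    · exact ⟨0, fun q hq A hA hv => absurd ⟨q, A, hq, hA, hv⟩ hex⟩
  choose d hd using key
  exact ⟨d, fun q hq A hA v hv => hd v q hq A hA hv⟩

/-! ### (c) additivity -/

namespace IsDivS

variable {L}
variable {t t' : QSx S} {d d' : HeightOneSpectrum (𝓞 L.field) → ℤ}

lemma zero : L.IsDivS (0 : QSx S) 0 := by
  intro q hq A hA v hv
  show IsUnitAt A ((1 : AlgebraicClosure ℚ) * ((q : ℕ) : AlgebraicClosure ℚ) ^ (-(0 : ℤ)))
  rw [neg_zero, zpow_zero, mul_one]
  exact IsUnitAt.one A

lemma add (h : L.IsDivS t d) (h' : L.IsDivS t' d') : L.IsDivS (t + t') (d + d') := by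
  intro q hq A hA v hv
  rw [smUnits.val_add, Units.val_mul]
  exact HasOrdAt.mul q.2 (h q hq A hA v hv) (h' q hq A hA v hv)

lemma neg (h : L.IsDivS t d) : L.IsDivS (-t) (-d) := by
  intro q hq A hA v hv
  rw [smUnits.val_neg, Units.val_inv_eq_inv_val]
  exact HasOrdAt.inv q.2 (h q hq A hA v hv)

lemma sub (h : L.IsDivS t d) (h' : L.IsDivS t' d') : L.IsDivS (t - t') (d - d') := by
  rw [sub_eq_add_neg, sub_eq_add_neg]
  exact h.add h'.neg

lemma nsmul (h : L.IsDivS t d) (n : ℕ) : L.IsDivS (n • t) (n • d) := by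
  induction n with
  | zero =>
    rw [zero_smul, zero_smul]
    exact zero
  | succ n ih =>
    rw [succ_nsmul, succ_nsmul]
    exact ih.add h

lemma zsmul (h : L.IsDivS t d) (n : ℤ) : L.IsDivS (n • t) (n • d) := by
  cases n with
  | ofNat n =>
    rw [Int.ofNat_eq_natCast, natCast_zsmul, natCast_zsmul]
    exact h.nsmul n
  | negSucc n =>
    rw [negSucc_zsmul, negSucc_zsmul]
    exact (h.nsmul (n + 1)).neg

lemma sum {ι : Type*} (s : Finset ι) (f : ι → QSx S)
    (e : ι → HeightOneSpectrum (𝓞 L.field) → ℤ) (h : ∀ i ∈ s, L.IsDivS (f i) (e i)) :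
    L.IsDivS (∑ i ∈ s, f i) (∑ i ∈ s, e i) := by
  classical
  induction s using Finset.induction_on with
  | empty =>
    rw [Finset.sum_empty, Finset.sum_empty]
    exact zero
  | insert a s ha ih =>
    rw [Finset.sum_insert ha, Finset.sum_insert ha]
    exact (h a (Finset.mem_insert_self a s)).add
      (ih fun i hi => h i (Finset.mem_insert_of_mem hi))

/-- Only the values of `d` at the primes outside `S` matter. -/
lemma congr (h : L.IsDivS t d)
    (hdd : ∀ (q : Nat.Primes) (A : ValuationSubring (AlgebraicClosure ℚ))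
      (hA : A.LiesOverPrime (q : ℕ)), q ∉ S →
        d (L.primeBelowAt q A hA) = d' (L.primeBelowAt q A hA)) : L.IsDivS t d' := by
  rw [isDivS_iff] at h ⊢
  intro q hq A hA
  rw [← hdd q A hA hq]
  exact h q hq A hA

/-! ### (b) uniqueness -/

/-- The divisor is unique at the primes below some `A` over `q ∉ S`. -/
lemma eq_of_primeBelow (h : L.IsDivS t d) (h' : L.IsDivS t d') (q : Nat.Primes) (hq : q ∉ S)
    (A : ValuationSubring (AlgebraicClosure ℚ)) (hA : A.LiesOverPrime (q : ℕ))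
    (v : HeightOneSpectrum (𝓞 L.field))
    (hv : v.asIdeal = Fermat.Agent.KFin.primeBelow L.field A) : d v = d' v :=
  hasOrdAt_unique q.2 hA (smUnits.val t).ne_zero (h q hq A hA v hv) (h' q hq A hA v hv)

/-- Divisor `0` ⇒ `S`-unit. -/
lemma mem_sUnitsAdd (h : L.IsDivS t 0) : t ∈ sUnitsAdd S := by
  rw [mem_sUnitsAdd_iff, isSUnit_iff_hasOrdAt_zero]
  intro q hq A hA
  exact h q hq A hA (L.primeBelowAt q A hA) rfl

/-- **Uniqueness**: `t`, `t'` with the same divisor differ by an `S`-unit. -/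
lemma sub_mem_sUnitsAdd (h : L.IsDivS t d) (h' : L.IsDivS t' d) : t - t' ∈ sUnitsAdd S := by
  have := h.sub h'
  rw [sub_self] at this
  exact this.mem_sUnitsAdd

/-- An element of `(ℚ_S)ˣ` which has a divisor (over `F`) lies in `T_U`. -/
lemma mem_TU (h : L.IsDivS t d) : t ∈ L.TU := by
  intro g hg
  rw [mem_sUnitsAdd_iff, isSUnit_iff_hasOrdAt_zero]
  intro q hq A hA
  -- the order of `g t` at `A` is the order of `t` at `g⁻¹ • A`, which lies over the same prime
  have hA' : (g⁻¹ • A).LiesOverPrime (q : ℕ) := liesOverPrime_smul A g⁻¹ q hA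
  have hP : Fermat.Agent.KFin.primeBelow L.field (g⁻¹ • A) =
      Fermat.Agent.KFin.primeBelow L.field A := by
    ext x
    rw [Fermat.Agent.KFin.mem_primeBelow_iff, Fermat.Agent.KFin.mem_primeBelow_iff]
    have hx : g (((x : L.field) : AlgebraicClosure ℚ)) = ((x : L.field) : AlgebraicClosure ℚ) :=
      (L.mem_field_iff _).1 (x : L.field).2 g hg
    constructor
    · intro h1
      have := Fermat.Agent.KFin.kf_smul_mem_nonunits (g⁻¹ • A) g h1
      rwa [smul_inv_smul, hx] at this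
    · intro h1
      have := Fermat.Agent.KFin.kf_smul_mem_nonunits A g⁻¹ h1
      have e : g⁻¹ (((x : L.field) : AlgebraicClosure ℚ)) =
          ((x : L.field) : AlgebraicClosure ℚ) := by
        conv_lhs => rw [← hx]
        exact g.symm_apply_apply _
      rwa [e] at this
  have h1 := h q hq (g⁻¹ • A) hA' (L.primeBelowAt q A hA) hP.symm
  have h2 := HasOrdAt.map g h1
  rw [smul_inv_smul] at h2
  have h3 := h q hq A hA (L.primeBelowAt q A hA) rfl
  have h4 := HasOrdAt.mul q.2 h2 (HasOrdAt.inv q.2 h3)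
  rw [add_neg_cancel] at h4
  rw [val_ρ_sub]
  exact h4

/-! ### (d) conjugation, abstract form -/

/-- The order of `g t` at `A` is the value of the divisor of `t` at the prime below
`g⁻¹ • A` (any `g : G_ℚ`). -/
lemma hasOrdAt_smul (h : L.IsDivS t d) (g : GQ) (q : Nat.Primes) (hq : q ∉ S)
    (A : ValuationSubring (AlgebraicClosure ℚ)) (hA : A.LiesOverPrime (q : ℕ))
    (w : HeightOneSpectrum (𝓞 L.field))
    (hw : w.asIdeal = Fermat.Agent.KFin.primeBelow L.field (g⁻¹ • A)) :
    HasOrdAt A q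
      ((smUnits.val ((QSx S).ρ g t) : (AlgebraicClosure ℚ)ˣ) : AlgebraicClosure ℚ) (d w) := by
  have hA' : (g⁻¹ • A).LiesOverPrime (q : ℕ) := liesOverPrime_smul A g⁻¹ q hA
  have h1 := h q hq (g⁻¹ • A) hA' w hw
  have h2 := HasOrdAt.map g h1
  rw [smul_inv_smul] at h2
  rw [smUnits.val_ρ]
  exact h2

end IsDivS

lemma isDivS_of_mem_sUnitsAdd {t : QSx S} (ht : t ∈ sUnitsAdd S) : L.IsDivS t 0 := by
  rw [mem_sUnitsAdd_iff, isSUnit_iff_hasOrdAt_zero] at ht
  intro q hq A hA v hv
  exact ht q hq A hA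

/-- Adding an `S`-unit does not change the divisor. -/
lemma IsDivS.add_sUnit {t e : QSx S} {d : HeightOneSpectrum (𝓞 L.field) → ℤ}
    (h : L.IsDivS t d) (he : e ∈ sUnitsAdd S) : L.IsDivS (t + e) d := by
  have := h.add (L.isDivS_of_mem_sUnitsAdd he)
  rwa [add_zero] at this

/-! ### (d) conjugation by elements normalising `U` -/

/-- `g` normalising `U` preserves `F`. -/
lemma map_mem_field_of_normalizer (g : GQ) (hg : g ∈ Subgroup.normalizer (L.U : Set GQ)) (x : AlgebraicClosure ℚ)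
    (hx : x ∈ L.field) : g x ∈ L.field := by
  rw [L.mem_field_iff] at hx ⊢
  intro u hu
  have h1 : g⁻¹ * u * g ∈ L.U := by
    rw [Subgroup.mem_normalizer_iff] at hg
    rw [hg]
    have e : g * (g⁻¹ * u * g) * g⁻¹ = u := by group
    rw [e]
    exact hu
  have h2 := hx _ h1
  have h3 : u (g x) = g ((g⁻¹ * u * g) x) := by
    show u (g x) = g (g.symm (u (g x)))
    rw [AlgEquiv.apply_symm_apply]
  rw [h3, h2]

/-- The restriction to `F` of `g` normalising `U`. -/
noncomputable def conjField (g : GQ) (hg : g ∈ Subgroup.normalizer (L.U : Set GQ)) : L.field →+* L.field where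
  toFun x := ⟨g (x : AlgebraicClosure ℚ), L.map_mem_field_of_normalizer g hg _ x.2⟩
  map_one' := Subtype.ext (map_one g)
  map_mul' _ _ := Subtype.ext (map_mul g _ _)
  map_zero' := Subtype.ext (map_zero g)
  map_add' _ _ := Subtype.ext (map_add g _ _)

@[simp] lemma coe_conjField (g : GQ) (hg : g ∈ Subgroup.normalizer (L.U : Set GQ)) (x : L.field) :
    ((L.conjField g hg x : L.field) : AlgebraicClosure ℚ) = g (x : AlgebraicClosure ℚ) := rfl

/-- The restriction to `𝓞 F` of `g` normalising `U`. -/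
noncomputable def conjHom (g : GQ) (hg : g ∈ Subgroup.normalizer (L.U : Set GQ)) : 𝓞 L.field →+* 𝓞 L.field :=
  NumberField.RingOfIntegers.mapRingHom (L.conjField g hg)

@[simp] lemma coe_conjHom (g : GQ) (hg : g ∈ Subgroup.normalizer (L.U : Set GQ)) (x : 𝓞 L.field) :
    (((L.conjHom g hg x : 𝓞 L.field) : L.field) : AlgebraicClosure ℚ) =
      g (((x : 𝓞 L.field) : L.field) : AlgebraicClosure ℚ) := rfl

lemma conjHom_conjHom_inv (g : GQ) (hg : g ∈ Subgroup.normalizer (L.U : Set GQ)) (x : 𝓞 L.field) :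
    L.conjHom g hg (L.conjHom g⁻¹ ((Subgroup.normalizer (L.U : Set GQ)).inv_mem hg) x) = x := by
  apply NumberField.RingOfIntegers.ext
  apply Subtype.ext
  rw [coe_conjHom, coe_conjHom]
  exact g.apply_symm_apply _

lemma conjHom_inv_conjHom (g : GQ) (hg : g ∈ Subgroup.normalizer (L.U : Set GQ)) (x : 𝓞 L.field) :
    L.conjHom g⁻¹ ((Subgroup.normalizer (L.U : Set GQ)).inv_mem hg) (L.conjHom g hg x) = x := by
  apply NumberField.RingOfIntegers.ext
  apply Subtype.ext
  rw [coe_conjHom, coe_conjHom]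
  exact g.symm_apply_apply _

/-- The prime `g⁻¹ (v) = {x | g x ∈ v}` of `F`, for `g` normalising `U`. -/
noncomputable def primeComap (g : GQ) (hg : g ∈ Subgroup.normalizer (L.U : Set GQ))
    (v : HeightOneSpectrum (𝓞 L.field)) : HeightOneSpectrum (𝓞 L.field) :=
  ⟨Ideal.comap (L.conjHom g hg) v.asIdeal, Ideal.comap_isPrime _ _, by
    intro h0
    obtain ⟨x, hx, hx0⟩ := Submodule.exists_mem_ne_zero_of_ne_bot v.ne_bot
    have h1 : L.conjHom g⁻¹ ((Subgroup.normalizer (L.U : Set GQ)).inv_mem hg) x ∈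
        Ideal.comap (L.conjHom g hg) v.asIdeal := by
      rw [Ideal.mem_comap, conjHom_conjHom_inv]
      exact hx
    rw [h0, Ideal.mem_bot] at h1
    apply hx0
    have := congrArg (L.conjHom g hg) h1
    rwa [conjHom_conjHom_inv, map_zero] at this⟩

lemma mem_primeComap (g : GQ) (hg : g ∈ Subgroup.normalizer (L.U : Set GQ)) (v : HeightOneSpectrum (𝓞 L.field))
    (x : 𝓞 L.field) : x ∈ (L.primeComap g hg v).asIdeal ↔ L.conjHom g hg x ∈ v.asIdeal :=
  Iff.rfl

lemma primeComap_primeComap_inv (g : GQ) (hg : g ∈ Subgroup.normalizer (L.U : Set GQ))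
    (v : HeightOneSpectrum (𝓞 L.field)) :
    L.primeComap g hg (L.primeComap g⁻¹ ((Subgroup.normalizer (L.U : Set GQ)).inv_mem hg) v) = v := by
  ext x
  rw [mem_primeComap, mem_primeComap, conjHom_inv_conjHom]

lemma primeComap_inv_primeComap (g : GQ) (hg : g ∈ Subgroup.normalizer (L.U : Set GQ))
    (v : HeightOneSpectrum (𝓞 L.field)) :
    L.primeComap g⁻¹ ((Subgroup.normalizer (L.U : Set GQ)).inv_mem hg) (L.primeComap g hg v) = v := by
  ext x
  rw [mem_primeComap, mem_primeComap, conjHom_conjHom_inv]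

/-- The prime of `F` below `g⁻¹ • A` is `g⁻¹ (A ∩ F)`. -/
lemma primeBelow_inv_smul (g : GQ) (hg : g ∈ Subgroup.normalizer (L.U : Set GQ))
    (A : ValuationSubring (AlgebraicClosure ℚ)) :
    Fermat.Agent.KFin.primeBelow L.field (g⁻¹ • A) =
      Ideal.comap (L.conjHom g hg) (Fermat.Agent.KFin.primeBelow L.field A) := by
  ext x
  rw [Ideal.mem_comap, Fermat.Agent.KFin.mem_primeBelow_iff,
    Fermat.Agent.KFin.mem_primeBelow_iff, coe_conjHom]
  constructor
  · intro h1
    have := Fermat.Agent.KFin.kf_smul_mem_nonunits (g⁻¹ • A) g h1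
    rwa [smul_inv_smul] at this
  · intro h1
    have := Fermat.Agent.KFin.kf_smul_mem_nonunits A g⁻¹ h1
    have e : g⁻¹ (g (((x : 𝓞 L.field) : L.field) : AlgebraicClosure ℚ)) =
        (((x : 𝓞 L.field) : L.field) : AlgebraicClosure ℚ) := g.symm_apply_apply _
    rwa [e] at this

/-- **Conjugation**: for `g` normalising `U`, the divisor of `g t` is `d ∘ g⁻¹`
("`a_{g t} = g (a_t)`"). -/
theorem IsDivS.conj {t : QSx S} {d : HeightOneSpectrum (𝓞 L.field) → ℤ} (h : L.IsDivS t d)
    (g : GQ) (hg : g ∈ Subgroup.normalizer (L.U : Set GQ)) :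
    L.IsDivS ((QSx S).ρ g t) (fun v => d (L.primeComap g hg v)) := by
  intro q hq A hA v hv
  refine h.hasOrdAt_smul g q hq A hA (L.primeComap g hg v) ?_
  rw [primeBelow_inv_smul L g hg A, ← hv]
  rfl

/-- `T_U` is stable under the normaliser of `U`. -/
lemma ρ_mem_TU {t : QSx S} (ht : t ∈ L.TU) (g : GQ) (hg : g ∈ Subgroup.normalizer (L.U : Set GQ)) :
    (QSx S).ρ g t ∈ L.TU := by
  obtain ⟨d, hd⟩ := L.exists_isDivS t ht
  exact (hd.conj L g hg).mem_TU

end OpenS

/-! ### The layer: `U` normalises `V` -/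

namespace LayerS

variable {p : ℕ} {S : Finset Nat.Primes} (ℓ : LayerS p S)

/-- `U = ℓ.bot.U` normalises `V = ℓ.top.U`. -/
lemma mem_normalizer (u : GQ) (hu : u ∈ ℓ.bot.U) : u ∈ Subgroup.normalizer (ℓ.top.U : Set GQ) := by
  rw [Subgroup.mem_normalizer_iff]
  intro v
  constructor
  · intro hv
    exact ℓ.cyc.normal u hu v hv
  · intro hv
    have h1 := ℓ.cyc.normal u⁻¹ (ℓ.bot.U.inv_mem hu) _ hv
    have e : u⁻¹ * (u * v * u⁻¹) * u⁻¹⁻¹ = v := by group
    rwa [e] at h1

/-- The divisor of `u t`, `u ∈ U`, `t ∈ T_V`, is `d ∘ u⁻¹`. -/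
theorem isDivS_ρ {t : QSx S} {d : HeightOneSpectrum (𝓞 ℓ.top.field) → ℤ}
    (h : ℓ.top.IsDivS t d) (u : GQ) (hu : u ∈ ℓ.bot.U) :
    ℓ.top.IsDivS ((QSx S).ρ u t)
      (fun w => d (ℓ.top.primeComap u (ℓ.mem_normalizer u hu) w)) :=
  h.conj ℓ.top u (ℓ.mem_normalizer u hu)

/-- The divisor of the norm `Σ_{i<p} σ^i t` of `t ∈ T_V`, as a divisor of `M`:
`Σ_i d ∘ σ^{-i}`. -/
theorem isDivS_cnorm {t : QSx S} {d : HeightOneSpectrum (𝓞 ℓ.top.field) → ℤ}
    (h : ℓ.top.IsDivS t d) :
    ℓ.top.IsDivS (F4Cf.cnorm (QSx S) p ℓ.σ t)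
      (∑ i ∈ Finset.range p, fun w => d (ℓ.top.primeComap (ℓ.σ ^ i)
        (ℓ.mem_normalizer _ (ℓ.bot.U.pow_mem ℓ.cyc.mem i)) w)) := by
  unfold F4Cf.cnorm
  exact OpenS.IsDivS.sum _ _ _ fun i _ =>
    ℓ.isDivS_ρ h (ℓ.σ ^ i) (ℓ.bot.U.pow_mem ℓ.cyc.mem i)

end LayerS

end Fermat.Agent.F4
end MergeWrap_F4_Dict_Div
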