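import Fermat.Agent.MUL.F4.Datum
import Fermat.Agent.MUL.F4.UC.Cup

section MergeWrap_F4_Dict_Units -- from F4/Dict/Units.lean

/-!
# F4 / Dict / Units : the concrete unit modules (layer DICT, D0)

For a group `Γ` with a level structure `𝓛` acting on a field `Ω` through `act : Γ →* RingAut Ω`:

* `smUnitsSub 𝓛 act` : the units of `Ω` fixed by some level;
* `smUnits 𝓛 act : Rep ℤ Γ` : the same, written additively, as a smooth `ℤ[Γ]`-module;
* `smUnits.val`, `smUnits.mk` : passage to and from `Ωˣ`.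

Instances:
* GLOB : `Γ = GQ`, `Ω = Qbar`, `𝓛 = levelsS S` : `QSx S = (ℚ_S)ˣ`;
* LOC  : `Γ = primeLocalGaloisGroup q`, `Ω = PadicAlgCl q`, `𝓛 = locLevelsS S q` resp.
  `locLevelsAll q` : `LqS S q = ((ℚ_S)_q)ˣ`, `LqAll q = (PadicAlgCl q)ˣ`-smooth part.
-/

set_option autoImplicit false

open CategoryTheory groupCohomology ExtCitation

namespace Fermat.Agent.F4

section Generic

variable {Γ : Type} [Group Γ] {Ω : Type} [Field Ω] (𝓛 : Levels Γ) (act : Γ →* RingAut Ω)

/-- The units of `Ω` fixed by some level. -/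
def smUnitsSub : Subgroup Ωˣ where
  carrier := {u | ∃ V ∈ 𝓛.sets, ∀ v ∈ V, act v (u : Ω) = u}
  one_mem' := by
    obtain ⟨V, hV⟩ := 𝓛.nonempty
    exact ⟨V, hV, fun v _ => by simp⟩
  mul_mem' := by
    rintro a b ⟨V, hV, ha⟩ ⟨W, hW, hb⟩
    obtain ⟨X, hX, hle⟩ := 𝓛.directed V hV W hW
    refine ⟨X, hX, fun v hv => ?_⟩
    rw [Units.val_mul, map_mul, ha v (hle hv).1, hb v (hle hv).2]
  inv_mem' := by
    rintro a ⟨V, hV, ha⟩
    refine ⟨V, hV, fun v hv => ?_⟩
    rw [Units.val_inv_eq_inv_val, map_inv₀, ha v hv]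

variable {𝓛 act}

lemma mem_smUnitsSub_iff (u : Ωˣ) :
    u ∈ smUnitsSub 𝓛 act ↔ ∃ V ∈ 𝓛.sets, ∀ v ∈ V, act v (u : Ω) = u := Iff.rfl

/-- `Γ` preserves the smooth units. -/
lemma smUnits_map_mem (g : Γ) {u : Ωˣ} (hu : u ∈ smUnitsSub 𝓛 act) :
    Units.map ((act g : Ω ≃+* Ω) : Ω →* Ω) u ∈ smUnitsSub 𝓛 act := by
  obtain ⟨V, hV, h⟩ := hu
  refine ⟨V, hV, fun v hv => ?_⟩
  have hn := 𝓛.normal V hV
  have hc : g⁻¹ * v * g ∈ V := by
    have := hn.conj_mem v hv g⁻¹
    simpa using this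
  have e : v * g = g * (g⁻¹ * v * g) := by group
  show act v (act g (u : Ω)) = act g (u : Ω)
  have h1 : act v (act g (u : Ω)) = act (v * g) (u : Ω) := by rw [map_mul]; rfl
  rw [h1, e, map_mul]
  show act g (act (g⁻¹ * v * g) (u : Ω)) = _
  rw [h _ hc]

variable (𝓛 act)

/-- The action of `g` on the smooth units, additively. -/
def smUnitsAct (g : Γ) : Additive ↥(smUnitsSub 𝓛 act) →+ Additive ↥(smUnitsSub 𝓛 act) :=
  MonoidHom.toAdditive
    { toFun := fun u => ⟨Units.map ((act g : Ω ≃+* Ω) : Ω →* Ω) u.1, smUnits_map_mem g u.2⟩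
      map_one' := Subtype.ext (map_one _)
      map_mul' := fun a b => Subtype.ext (map_mul _ a.1 b.1) }

/-- The representation of `Γ` on the smooth units. -/
def smUnitsRepr : Representation ℤ Γ (Additive ↥(smUnitsSub 𝓛 act)) where
  toFun g := (smUnitsAct 𝓛 act g).toIntLinearMap
  map_one' := by
    refine LinearMap.ext fun x => ?_
    induction x using Additive.rec with
    | ofMul u =>
      apply congrArg Additive.ofMul
      apply Subtype.ext
      apply Units.ext
      show act 1 (u.1 : Ω) = u.1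
      rw [map_one]; rfl
  map_mul' g h := by
    refine LinearMap.ext fun x => ?_
    induction x using Additive.rec with
    | ofMul u =>
      apply congrArg Additive.ofMul
      apply Subtype.ext
      apply Units.ext
      show act (g * h) (u.1 : Ω) = act g (act h (u.1 : Ω))
      rw [map_mul]; rfl

/-- **The smooth units** of `Ω` as a `ℤ[Γ]`-module (written additively). -/
abbrev smUnits : Rep.{0} ℤ Γ := Rep.of (smUnitsRepr 𝓛 act)

variable {𝓛 act}

/-- The underlying unit. -/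
def smUnits.val (x : smUnits 𝓛 act) : Ωˣ := (Additive.toMul (x : Additive ↥(smUnitsSub 𝓛 act))).1

/-- The element of `smUnits` attached to a smooth unit. -/
def smUnits.mk (u : Ωˣ) (hu : u ∈ smUnitsSub 𝓛 act) : smUnits 𝓛 act :=
  (Additive.ofMul (⟨u, hu⟩ : ↥(smUnitsSub 𝓛 act)) : Additive ↥(smUnitsSub 𝓛 act))

@[simp] lemma smUnits.val_mk (u : Ωˣ) (hu : u ∈ smUnitsSub 𝓛 act) :
    smUnits.val (smUnits.mk u hu) = u := rfl

lemma smUnits.val_mem (x : smUnits 𝓛 act) : smUnits.val x ∈ smUnitsSub 𝓛 act :=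
  (Additive.toMul (x : Additive ↥(smUnitsSub 𝓛 act))).2

lemma smUnits.val_injective : Function.Injective (smUnits.val : smUnits 𝓛 act → Ωˣ) := by
  intro x y h
  exact Additive.toMul.injective (Subtype.ext h)

@[simp] lemma smUnits.val_zero : smUnits.val (0 : smUnits 𝓛 act) = 1 := rfl

@[simp] lemma smUnits.val_add (x y : smUnits 𝓛 act) :
    smUnits.val (x + y) = smUnits.val x * smUnits.val y := rfl

@[simp] lemma smUnits.val_neg (x : smUnits 𝓛 act) :
    smUnits.val (-x) = (smUnits.val x)⁻¹ := rfl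

lemma smUnits.val_nsmul (n : ℕ) (x : smUnits 𝓛 act) :
    smUnits.val (n • x) = smUnits.val x ^ n := rfl

lemma smUnits.val_zsmul (n : ℤ) (x : smUnits 𝓛 act) :
    smUnits.val (n • x) = smUnits.val x ^ n := rfl

@[simp] lemma smUnits.val_ρ (g : Γ) (x : smUnits 𝓛 act) :
    ((smUnits.val ((smUnits 𝓛 act).ρ g x) : Ωˣ) : Ω) = act g ((smUnits.val x : Ωˣ) : Ω) := rfl

/-- The smooth units form a smooth module. -/
theorem smUnits_smooth : IsSmooth 𝓛 (smUnits 𝓛 act) := by
  intro x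
  obtain ⟨V, hV, h⟩ := smUnits.val_mem x
  refine ⟨V, hV, fun g hg => ?_⟩
  apply smUnits.val_injective
  apply Units.ext
  exact (smUnits.val_ρ g x).trans (h g hg)

/-- Invariants: `x` is fixed by a subgroup `U` iff its value is. -/
lemma smUnits.ρ_eq_iff (g : Γ) (x : smUnits 𝓛 act) :
    (smUnits 𝓛 act).ρ g x = x ↔
      act g ((smUnits.val x : Ωˣ) : Ω) = ((smUnits.val x : Ωˣ) : Ω) := by
  constructor
  · intro h
    have h' : ((smUnits.val ((smUnits 𝓛 act).ρ g x) : Ωˣ) : Ω) = ((smUnits.val x : Ωˣ) : Ω) := by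
      rw [h]
    exact (smUnits.val_ρ g x).symm.trans h'
  · intro h
    apply smUnits.val_injective
    apply Units.ext
    exact (smUnits.val_ρ g x).trans h

end Generic

/-! ### The global module `(ℚ_S)ˣ` -/

section Global

/-- The action of `Gal(ℚ̄/ℚ)` on `ℚ̄` as a homomorphism to `RingAut`. -/
noncomputable def galAct : GQ →* RingAut (AlgebraicClosure ℚ) where
  toFun σ := σ.toRingEquiv
  map_one' := rfl
  map_mul' _ _ := rfl

@[simp] lemma galAct_apply (σ : GQ) (x : AlgebraicClosure ℚ) : galAct σ x = σ x := rfl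

variable (S : Finset Nat.Primes)

/-- `(ℚ_S)ˣ` as a smooth `ℤ[G_ℚ]`-module. -/
noncomputable abbrev QSx : Rep.{0} ℤ GQ := smUnits (levelsS S) galAct

/-- `x ∈ ℚ_S` : `x` lies in a finite Galois extension of `ℚ` unramified outside `S`. -/
lemma mem_smUnitsSub_levelsS_iff (u : (AlgebraicClosure ℚ)ˣ) :
    u ∈ smUnitsSub (levelsS S) galAct ↔
      ∃ F : IntermediateField ℚ (AlgebraicClosure ℚ),
        F.IsUnramifiedOutside S ∧ IsStableField F ∧ (u : AlgebraicClosure ℚ) ∈ F := by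
  have := isGalois_Qbar
  constructor
  · rintro ⟨V, ⟨F, hF, hst, rfl⟩, h⟩
    refine ⟨F, hF, hst, ?_⟩
    have hF1 := hF.1
    have hfix : (u : AlgebraicClosure ℚ) ∈ IntermediateField.fixedField F.fixingSubgroup := by
      intro σ
      exact h σ.1 σ.2
    rwa [InfiniteGalois.fixedField_fixingSubgroup] at hfix
  · rintro ⟨F, hF, hst, hu⟩
    refine ⟨F.fixingSubgroup, ⟨F, hF, hst, rfl⟩, fun v hv => ?_⟩
    exact (IntermediateField.mem_fixingSubgroup_iff F v).1 hv _ hu

end Global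

end Fermat.Agent.F4
end MergeWrap_F4_Dict_Units
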